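import Mathlib
import Fermat.Prelude.Def_ModularForm_HeckeOperatorForms
import Fermat.Prelude.Def_FLTPrelim_Modularity
import Fermat.Prelude.Thm_UpperHalfPlane_qCoeff_heckeT
import Fermat.Prelude.Thm_UpperHalfPlane_eq_of_forall_qCoeff_eq
import Fermat.Prelude.Thm_CongruenceSubgroup_one_mem_strictPeriods_Gamma0
import Fermat.Agent.S49.Glue

/-!
# S29 / P5-E2b (helper225) — a normalized eigenform (Prelude sense: multiplicative
`q`-coefficients) is an eigenvector of `T_p`, `p ∤ N`, with eigenvalue `a_p`.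

Exact statement of helper201's skeleton `Fermat/Agent/S29/H201/Eigen.lean`.
-/

set_option autoImplicit false

open CongruenceSubgroup UpperHalfPlane
open scoped MatrixGroups

namespace Fermat.Agent.S29.H225

variable {N : ℕ} {p : ℕ}

/-- The coefficient identity `a(np) + [p ∣ n] p a(n/p) = a_p a(n)` for a normalized eigenform. -/
theorem qCoeff_hecke_rel {g : CuspForm (Gamma0 N) 2}
    (hg : g.IsNormalizedEigenform) (hp : p.Prime) (hpN : ¬ p ∣ N) (n : ℕ) :
    ModularFormClass.qCoeff g (n * p) +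
        (if p ∣ n then (p : ℂ) * ModularFormClass.qCoeff g (n / p) else 0) =
      ModularFormClass.qCoeff g p * ModularFormClass.qCoeff g n := by
  rcases Nat.eq_zero_or_pos n with rfl | hn
  · have h0 : ModularFormClass.qCoeff (⇑g) 0 = 0 := Fermat.Agent.S49.glue_qCoeff_zero_idx g
    simp [h0]
  obtain ⟨r, m, hm, rfl⟩ := Nat.exists_eq_pow_mul_and_not_dvd hn.ne' p hp.ne_one
  have hcop : ∀ s : ℕ, (p ^ s).Coprime m := fun s =>
    Nat.Coprime.pow_left s ((Nat.Prime.coprime_iff_not_dvd hp).2 hm)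
  cases r with
  | zero =>
    have hnd : ¬ p ∣ p ^ 0 * m := by simpa using hm
    rw [if_neg hnd, add_zero]
    have h1 : p ^ 0 * m * p = p ^ 1 * m := by ring
    rw [h1, hg.qCoeff_mul_of_coprime _ _ (hcop 1), hg.qCoeff_mul_of_coprime _ _ (hcop 0)]
    simp only [pow_zero, pow_one, hg.qCoeff_one, one_mul]
  | succ r =>
    have hd : p ∣ p ^ (r + 1) * m := Dvd.dvd.mul_right (dvd_pow_self p (Nat.succ_ne_zero r)) m
    rw [if_pos hd]
    have h1 : p ^ (r + 1) * m * p = p ^ (r + 2) * m := by ring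
    have h2 : p ^ (r + 1) * m / p = p ^ r * m := by
      have : p ^ (r + 1) * m = p * (p ^ r * m) := by ring
      rw [this, Nat.mul_div_cancel_left _ hp.pos]
    rw [h1, h2, hg.qCoeff_mul_of_coprime _ _ (hcop (r + 2)),
      hg.qCoeff_mul_of_coprime _ _ (hcop (r + 1)), hg.qCoeff_mul_of_coprime _ _ (hcop r),
      hg.qCoeff_prime_pow_of_not_dvd p r hp hpN]
    ring

/-- **E2b** -/
theorem heckeTLin_eq_smul_of_isNormalizedEigenform {g : CuspForm (Gamma0 N) 2}
    (hg : g.IsNormalizedEigenform) (hp : p.Prime) (hpN : ¬ p ∣ N) :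
    CuspForm.heckeTLin 2 hp hpN g = ModularFormClass.qCoeff g p • g := by
  rw [← sub_eq_zero]
  apply Fermat.Agent.S49.glue_eq_zero_of_qCoeff
  intro n
  rw [Fermat.Agent.S49.glue_qCoeff_sub, Fermat.Agent.S49.glue_qCoeff_heckeTLin hp hpN,
    Fermat.Agent.S49.glue_qCoeff_smul, qCoeff_hecke_rel hg hp hpN n, sub_self]

end Fermat.Agent.S29.H225
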