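import Mathlib

/-!
# S29 / P5-E2, piece E2-alg (helper225, statements of helper201's `Lattice.lean`)

A finitely generated subgroup `L ≠ 0` of `ℂ`: its multipliers are algebraic integers, and for
every ring hom `ψ : ℤ̄ → F` (`F` a field of characteristic `q > 0`) there is a nonzero additive
`μ : L → F` with `μ (a x) = ψ a * μ x` whenever `a ∈ ℤ̄`, `x ∈ L`, `a x ∈ L` (Nakayama applied to
the `ℤ̄`-span of `L`).
-/

set_option autoImplicit false

namespace Fermat.Agent.S29.H225

section General

/-- Over a field, a nonzero vector is detected by a linear functional. -/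
theorem exists_dual_ne_zero (k Q : Type*) [Field k] [AddCommGroup Q] [Module k Q] (y : Q)
    (hy : y ≠ 0) : ∃ f : Q →ₗ[k] k, f y ≠ 0 := by
  by_contra h
  push Not at h
  exact hy ((Module.forall_dual_apply_eq_zero_iff k y).mp h)

/-- **Nakayama**: a finite faithful module `M` over `R` and a ring hom `ψ : R → F` to a field
with maximal kernel admit a nonzero `ψ`-semilinear functional `M → F`. -/
theorem exists_semilinear {R : Type*} [CommRing R] {M : Type*} [AddCommGroup M] [Module R M]
    [Module.Finite R M] {F : Type*} [Field F] (ψ : R →+* F) (hmax : (RingHom.ker ψ).IsMaximal)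
    (hfaith : ∀ r : R, (∀ x : M, r • x = 0) → r = 0) :
    ∃ μ : M →+ F, μ ≠ 0 ∧ ∀ (a : R) (x : M), μ (a • x) = ψ a * μ x := by
  classical
  set m := RingHom.ker ψ with hm
  -- Nakayama
  have hnot : ¬ (⊤ : Submodule R M) ≤ m • (⊤ : Submodule R M) := by
    intro hle
    obtain ⟨r, hr1, hr0⟩ := Submodule.exists_sub_one_mem_and_smul_eq_zero_of_fg_of_le_smul m ⊤
      Module.Finite.fg_top hle
    have hr : r = 0 := hfaith r (fun x => hr0 x trivial)
    rw [hr, zero_sub] at hr1
    have h1 : (1 : R) ∈ m := by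
      have := m.neg_mem hr1
      simpa using this
    exact hmax.ne_top ((Ideal.eq_top_iff_one m).mpr h1)
  obtain ⟨y, hy⟩ : ∃ y : M, y ∉ m • (⊤ : Submodule R M) := by
    by_contra h
    push Not at h
    exact hnot (fun x _ => h x)
  have hy' : (Submodule.Quotient.mk y : M ⧸ m • (⊤ : Submodule R M)) ≠ 0 := by
    intro h
    exact hy ((Submodule.Quotient.mk_eq_zero _).mp h)
  obtain ⟨f, hf⟩ := @exists_dual_ne_zero (R ⧸ m) (M ⧸ m • (⊤ : Submodule R M))
    (Ideal.Quotient.field m) _ inferInstance _ hy'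
  -- the induced embedding `R ⧸ m → F`
  let ψbar : R ⧸ m →+* F := RingHom.kerLift ψ
  have hψbar : Function.Injective ψbar := RingHom.kerLift_injective ψ
  let μ : M →+ F :=
    { toFun := fun x => ψbar (f (Submodule.Quotient.mk x))
      map_zero' := by
        simp
      map_add' := by
        intro x x'
        simp }
  refine ⟨μ, ?_, ?_⟩
  · intro h
    have h1 : μ y = 0 := by rw [h]; rfl
    have h2 : ψbar (f (Submodule.Quotient.mk y)) = 0 := h1
    rw [map_eq_zero_iff ψbar hψbar] at h2
    exact hf h2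
  · intro a x
    show ψbar (f (Submodule.Quotient.mk (a • x))) = ψ a * ψbar (f (Submodule.Quotient.mk x))
    have e1 : (Submodule.Quotient.mk (a • x) : M ⧸ m • (⊤ : Submodule R M)) =
        (Ideal.Quotient.mk m a) • (Submodule.Quotient.mk x : M ⧸ m • (⊤ : Submodule R M)) := rfl
    rw [e1, map_smul, smul_eq_mul, map_mul]
    rfl

end General

/-- multipliers of a nonzero f.g. subgroup of `ℂ` are algebraic integers -/
theorem isIntegral_of_mul_mem (L : AddSubgroup ℂ) (hL : L.FG) (hL0 : L ≠ ⊥) (a : ℂ)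
    (ha : ∀ x ∈ L, a * x ∈ L) : IsIntegral ℤ a := by
  refine isIntegral_of_smul_mem_submodule (R := ℤ) (A := ℂ) (M := ℂ) (AddSubgroup.toIntSubmodule L)
    ?_ ?_ a ?_
  · intro h
    apply hL0
    have := congrArg AddSubgroup.toIntSubmodule.symm h
    simpa using this
  · rw [Submodule.fg_iff_addSubgroup_fg, AddSubgroup.toIntSubmodule_toAddSubgroup]
    exact hL
  · intro n hn
    exact ha n hn

/-- the kernel of a ring hom from `ℤ̄` to a field of positive characteristic is maximal -/
theorem ker_isMaximal {F : Type*} [Field F] (q : ℕ) [hq : Fact q.Prime] [CharP F q]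
    (ψ : integralClosure ℤ ℂ →+* F) : (RingHom.ker ψ).IsMaximal := by
  have : (RingHom.ker ψ).IsPrime := RingHom.ker_isPrime ψ
  apply Ideal.isMaximal_of_isIntegral_of_isMaximal_comap (R := ℤ) (RingHom.ker ψ)
  have hcomap : (RingHom.ker ψ).comap (algebraMap ℤ (integralClosure ℤ ℂ)) =
      Ideal.span {(q : ℤ)} := by
    ext n
    rw [Ideal.mem_comap, RingHom.mem_ker, Ideal.mem_span_singleton]
    have : ψ (algebraMap ℤ (integralClosure ℤ ℂ) n) = (n : F) := by
      simp
    rw [this]
    exact CharP.intCast_eq_zero_iff F q n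
  rw [hcomap]
  exact Int.ideal_span_isMaximal_of_prime q

/-- **E2-alg** (Nakayama) -/
theorem exists_eigen_functional (L : AddSubgroup ℂ) (hL : L.FG) (hL0 : L ≠ ⊥)
    {F : Type*} [Field F] (q : ℕ) [Fact q.Prime] [CharP F q]
    (ψ : integralClosure ℤ ℂ →+* F) :
    ∃ μ : L →+ F, μ ≠ 0 ∧
      ∀ a : integralClosure ℤ ℂ, ∀ x : L, ∀ h : (a : ℂ) * (x : ℂ) ∈ L,
        μ ⟨(a : ℂ) * (x : ℂ), h⟩ = ψ a * μ x := by
  classical
  -- the `ℤ̄`-span of `L`
  set M : Submodule (integralClosure ℤ ℂ) ℂ := Submodule.span (integralClosure ℤ ℂ) (L : Set ℂ)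
    with hM
  have hLM : ∀ x ∈ L, x ∈ M := fun x hx => Submodule.subset_span hx
  -- finiteness
  have hfin : Module.Finite (integralClosure ℤ ℂ) M := by
    obtain ⟨S, hS⟩ := hL
    rw [Module.Finite.iff_fg]
    refine ⟨S, ?_⟩
    apply le_antisymm
    · rw [Submodule.span_le]
      intro x hx
      apply hLM
      rw [← hS]
      exact AddSubgroup.subset_closure hx
    · rw [hM, Submodule.span_le]
      intro x hx
      rw [SetLike.mem_coe, ← hS] at hx
      induction hx using AddSubgroup.closure_induction with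
      | mem y hy => exact Submodule.subset_span hy
      | zero => exact Submodule.zero_mem _
      | add y z _ _ hy hz => exact Submodule.add_mem _ hy hz
      | neg y _ hy => exact Submodule.neg_mem _ hy
  -- faithfulness
  obtain ⟨x₀, hx₀L, hx₀⟩ : ∃ x ∈ L, x ≠ 0 := by
    by_contra h
    push Not at h
    apply hL0
    rw [eq_bot_iff]
    intro x hx
    rw [AddSubgroup.mem_bot]
    exact h x hx
  have hfaith : ∀ r : integralClosure ℤ ℂ, (∀ x : M, r • x = 0) → r = 0 := by
    intro r hr
    have h1 := hr ⟨x₀, hLM x₀ hx₀L⟩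
    have h2 : (r : ℂ) * x₀ = 0 := by
      have := congrArg (fun z : M => (z : ℂ)) h1
      simpa [Subalgebra.smul_def] using this
    rcases mul_eq_zero.mp h2 with h | h
    · exact Subtype.ext h
    · exact absurd h hx₀
  obtain ⟨μ', hμ'0, hμ'⟩ := exists_semilinear (M := M) ψ (ker_isMaximal q ψ) hfaith
  -- restrict to `L`
  let incl : L →+ M :=
    { toFun := fun x => ⟨x, hLM x x.2⟩
      map_zero' := rfl
      map_add' := fun _ _ => rfl }
  refine ⟨μ'.comp incl, ?_, ?_⟩
  · intro h
    apply hμ'0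
    -- `μ'` vanishes on the span of `L`
    have hker : ∀ y : ℂ, ∀ hy : y ∈ M, μ' ⟨y, hy⟩ = 0 := by
      intro y hy
      induction hy using Submodule.span_induction with
      | mem y hy =>
        have := DFunLike.congr_fun h ⟨y, hy⟩
        exact this
      | zero => exact map_zero μ'
      | add y z hy hz ihy ihz =>
        have : (⟨y + z, Submodule.add_mem _ hy hz⟩ : M) = ⟨y, hy⟩ + ⟨z, hz⟩ := rfl
        rw [this, map_add, ihy, ihz, add_zero]
      | smul a y hy ihy =>
        have : (⟨a • y, Submodule.smul_mem _ a hy⟩ : M) = a • ⟨y, hy⟩ := rfl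
        rw [this, hμ', ihy, mul_zero]
    ext ⟨y, hy⟩
    exact hker y hy
  · intro a x h
    show μ' ⟨(a : ℂ) * (x : ℂ), _⟩ = ψ a * μ' ⟨x, _⟩
    rw [← hμ']
    rfl

end Fermat.Agent.S29.H225
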